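import Fermat.Agent.S12.Loc.Node
import Fermat.Agent.S58.Tors

/-!
# S12 / LOC-BAD (block MULT) : torsion of odd order prime to `ℓ` at a multiplicative prime `A ∣ ℓ`

`E0 = W.InZeroComponentAt A`.  For `N` odd, `v_A(N) = 1`, on `T[N] = {N • P = 0}` :

* (B1) `E0 ∩ T[N]` is a subgroup ;
* (B3) inertia fixes `E0 ∩ T[N]` pointwise and `σ P - P ∈ E0` ;
* (B4) the decomposition group preserves `E0 ∩ T[N]` ;
* (B5) for `σ` in the decomposition group `σ P - P ∈ E0` or `σ P + P ∈ E0` ;
* (B6) consequences for the chain of S12 (`UNR`, `TWOTHREE`, `E0 ∩ T[p^k] = ⟨Q⟩`).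
-/

set_option autoImplicit false
set_option linter.unusedSectionVars false
set_option linter.unusedVariables false

namespace Fermat.Agent.S12.Loc

open Fermat.Agent.S05 Fermat.Agent.S13 Fermat.Agent.S58 Fermat.Agent.S58.LocM
  Fermat.Agent.S15.M1.Loc
open WeierstrassCurve WeierstrassCurve.Affine WeierstrassCurve.Affine.Point
open scoped Pointwise

/-! ### abstract part -/

section abs

variable {G : Type*} [AddCommGroup G] {K : Type*} [Field K]
  {Γ₀ : Type*} [LinearOrderedCommGroupWithZero Γ₀]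
  {v : Valuation K Γ₀} {V : WeierstrassCurve K} {X Z : G → K} {α : Γ₀} {T : AddSubgroup G}

/-- two torsion points of node type at the same distance of the node: their sum or their
difference is of unit type. -/
theorem abs_pm_unit (h : IsWC V X Z) (hN : IsNodal v V α) (hT : IsTors v X T) {P Q : G}
    (hP : P ∈ T) (hQ : Q ∈ T) (hP0 : P ≠ 0) (hQ0 : Q ≠ 0) (hXP : v (X P) < 1)
    (hvQ : v (X Q) = v (X P)) :
    (Q = P ∨ Q = -P) ∨ v (X (P + Q)) = 1 ∨ v (X (P - Q)) = 1 := by
  have hNg := node_gt h hN hT hP hP0 hXP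
  have hx0 : 0 < v (X P) ^ 2 := lt_of_le_of_lt zero_le hNg
  by_cases hne : X P = X Q
  · left
    exact (h.X_eq_iff hQ0 hP0).1 hne.symm
  right
  have hs0 : P + Q ≠ 0 := by
    intro h0; apply hne
    have e1 : P = -Q := eq_neg_of_add_eq_zero_left h0
    exact (congrArg X e1).trans (h.X_neg _)
  have hd0 : P - Q ≠ 0 := by
    intro h0; apply hne; exact congrArg X (sub_eq_zero.mp h0)
  have hadd := h.add_add_sub hP0 hQ0 hne
  have hr1 := hT.int _ (T.add_mem hP hQ) hs0
  have hr2 := hT.int _ (T.sub_mem hP hQ) hd0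
  have h3 := node_num_sum hN hNg hXP hvQ
  rw [← hadd, map_mul, map_pow] at h3
  have hd : v (X P - X Q) ≤ v (X P) := Valuation.map_sub_le v le_rfl hvQ.le
  have hsum : v (X (P + Q) + X (P - Q)) = 1 := by
    apply le_antisymm (le1_add v hr1 hr2)
    by_contra hlt
    push Not at hlt
    have : v (X (P + Q) + X (P - Q)) * v (X P - X Q) ^ 2 < v (X P) ^ 2 := by
      calc v (X (P + Q) + X (P - Q)) * v (X P - X Q) ^ 2
          ≤ v (X (P + Q) + X (P - Q)) * v (X P) ^ 2 := by gcongr
        _ < 1 * v (X P) ^ 2 := by gcongr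
        _ = v (X P) ^ 2 := one_mul _
    exact this.ne h3
  by_contra hcon
  push Not at hcon
  exact (lt1_add v (lt_of_le_of_ne hr1 hcon.1) (lt_of_le_of_ne hr2 hcon.2)).ne hsum

end abs

/-! ### automorphisms stabilising a valuation ring preserve the valuation -/

section stab

variable {K L : Type*} [Field K] [Field L] [Algebra K L]

lemma mem_iff_of_decomp (A : ValuationSubring L) {σ : L ≃ₐ[K] L}
    (hσ : σ ∈ A.decompositionSubgroup K) (y : L) : σ y ∈ A ↔ y ∈ A := by
  have h1 : σ • A = A := hσ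
  have h2 : σ • y ∈ σ • A ↔ y ∈ A := ValuationSubring.smul_mem_pointwise_smul_iff
  rw [h1] at h2
  exact h2

lemma val_le_iff_of_decomp (A : ValuationSubring L) {σ : L ≃ₐ[K] L}
    (hσ : σ ∈ A.decompositionSubgroup K) (a b : L) :
    A.valuation (σ a) ≤ A.valuation (σ b) ↔ A.valuation a ≤ A.valuation b := by
  by_cases hb : b = 0
  · subst hb
    simp
  · have hb' : σ b ≠ 0 := by simpa using hb
    have h0 : 0 < A.valuation b := zero_lt_iff.mpr ((Valuation.ne_zero_iff _).mpr hb)
    have h0' : 0 < A.valuation (σ b) := zero_lt_iff.mpr ((Valuation.ne_zero_iff _).mpr hb')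
    rw [← div_le_one₀ h0, ← div_le_one₀ h0', ← map_div₀, ← map_div₀, ← map_div₀,
      ValuationSubring.valuation_le_one_iff, ValuationSubring.valuation_le_one_iff]
    exact mem_iff_of_decomp A hσ _

/-- elements of the decomposition group preserve the valuation. -/
theorem val_decomp_eq [Algebra.IsAlgebraic K L] (A : ValuationSubring L) {σ : L ≃ₐ[K] L}
    (hσ : σ ∈ A.decompositionSubgroup K) (x : L) : A.valuation (σ x) = A.valuation x := by
  obtain ⟨n, hn, hfix⟩ := exists_pow_fix σ x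
  have hle := val_le_iff_of_decomp A hσ
  have hlt : ∀ a b : L, A.valuation (σ a) < A.valuation (σ b) ↔ A.valuation a < A.valuation b := by
    intro a b
    rw [← not_le, ← not_le, hle]
  rcases lt_trichotomy (A.valuation (σ x)) (A.valuation x) with h | h | h
  · exfalso
    have key : ∀ k : ℕ, A.valuation ((σ ^ (k + 1)) x) < A.valuation x := by
      intro k
      induction k with
      | zero => simpa using h
      | succ k ih =>
        have : A.valuation (σ ((σ ^ (k + 1)) x)) < A.valuation (σ x) := (hlt _ _).mpr ih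
        rw [pow_succ' σ (k + 1), AlgEquiv.mul_apply]
        exact this.trans h
    have := key (n - 1)
    rw [show n - 1 + 1 = n by omega, hfix] at this
    exact lt_irrefl _ this
  · exact h
  · exfalso
    have key : ∀ k : ℕ, A.valuation x < A.valuation ((σ ^ (k + 1)) x) := by
      intro k
      induction k with
      | zero => simpa using h
      | succ k ih =>
        have : A.valuation (σ x) < A.valuation (σ ((σ ^ (k + 1)) x)) := (hlt _ _).mpr ih
        rw [pow_succ' σ (k + 1), AlgEquiv.mul_apply]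
        exact h.trans this
    have := key (n - 1)
    rw [show n - 1 + 1 = n by omega, hfix] at this
    exact lt_irrefl _ this

end stab

/-! ### (B1) the subgroup -/

section main

variable {W : WeierstrassCurve ℤ} {A : ValuationSubring Qb} {N : ℕ}

/-- the bridge: on nonzero torsion points, zero component = unit type in the centred model. -/
theorem inZero_iff (hM : Mult W A) (hN : Odd N) (hNv : A.valuation (N : Qb) = 1) {P : EP W}
    (hP0 : P ≠ 0) (hP : N • P = 0) :
    W.InZeroComponentAt A P ↔ A.valuation (xc P - cenR ((EQ W)⁄Qb)) = 1 := by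
  constructor
  · exact hM.val_X_eq_one hP0 (val_xc_tors hNv hP0 hP)
  · intro hX
    have hWC := isWC_shift ((EQ W)⁄Qb) (cenR ((EQ W)⁄Qb)) (cenT ((EQ W)⁄Qb))
    have := abs_psi_eq_one hWC hM.isNodal (hM.isTors hN hNv) (P := P) hP hP0 hX
    apply inZero_of_psi2
    rw [← psi2_shift ((EQ W)⁄Qb) (cenR ((EQ W)⁄Qb)) (cenT ((EQ W)⁄Qb)) P]
    exact this

theorem not_inZero_iff (hM : Mult W A) (hN : Odd N) (hNv : A.valuation (N : Qb) = 1) {P : EP W}
    (hP0 : P ≠ 0) (hP : N • P = 0) :
    ¬ W.InZeroComponentAt A P ↔ A.valuation (xc P - cenR ((EQ W)⁄Qb)) < 1 := by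
  rw [inZero_iff hM hN hNv hP0 hP]
  have hle : A.valuation (xc P - cenR ((EQ W)⁄Qb)) ≤ 1 :=
    le1_sub _ (val_xc_tors hNv hP0 hP) hM.val_cenR
  exact ⟨fun h => lt_of_le_of_ne hle h, fun h => h.ne⟩

theorem inZero_zero : W.InZeroComponentAt A (0 : EP W) := Or.inl rfl

theorem inZero_add (hM : Mult W A) (hN : Odd N) (hNv : A.valuation (N : Qb) = 1) {P Q : EP W}
    (hP : N • P = 0) (hQ : N • Q = 0) (h1 : W.InZeroComponentAt A P)
    (h2 : W.InZeroComponentAt A Q) : W.InZeroComponentAt A (P + Q) := by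
  by_cases hP0 : P = 0
  · rw [hP0, zero_add]; exact h2
  by_cases hQ0 : Q = 0
  · rw [hQ0, add_zero]; exact h1
  have hWC := isWC_shift ((EQ W)⁄Qb) (cenR ((EQ W)⁄Qb)) (cenT ((EQ W)⁄Qb))
  rcases unit_add hWC hM.isNodal (hM.isTors hN hNv) (P := P) (Q := Q) hP hQ hP0 hQ0
    ((inZero_iff hM hN hNv hP0 hP).1 h1) ((inZero_iff hM hN hNv hQ0 hQ).1 h2) with h | h
  · exact Or.inl h
  · by_cases h0 : P + Q = 0
    · exact Or.inl h0
    · exact (inZero_iff hM hN hNv h0 (by rw [nsmul_add, hP, hQ, add_zero])).2 h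

theorem inZero_neg (hM : Mult W A) (hN : Odd N) (hNv : A.valuation (N : Qb) = 1) {P : EP W}
    (hP : N • P = 0) (h1 : W.InZeroComponentAt A P) : W.InZeroComponentAt A (-P) := by
  by_cases hP0 : P = 0
  · rw [hP0, _root_.neg_zero]; exact inZero_zero
  have hP' : N • (-P) = 0 := by rw [neg_nsmul, hP, _root_.neg_zero]
  rw [inZero_iff hM hN hNv (neg_ne_zero.mpr hP0) hP', xc_neg]
  exact (inZero_iff hM hN hNv hP0 hP).1 h1

/-- **(B1)** the subgroup `E0 ∩ T[N]`. -/
noncomputable def E0 (hM : Mult W A) (hN : Odd N) (hNv : A.valuation (N : Qb) = 1) : AddSubgroup (EP W) where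
  carrier := {P | N • P = 0 ∧ W.InZeroComponentAt A P}
  zero_mem' := ⟨nsmul_zero N, inZero_zero⟩
  add_mem' := fun {P Q} hP hQ =>
    ⟨by rw [nsmul_add, hP.1, hQ.1, add_zero], inZero_add hM hN hNv hP.1 hQ.1 hP.2 hQ.2⟩
  neg_mem' := fun {P} hP => ⟨by rw [neg_nsmul, hP.1, _root_.neg_zero], inZero_neg hM hN hNv hP.1 hP.2⟩

theorem mem_E0 (hM : Mult W A) (hN : Odd N) (hNv : A.valuation (N : Qb) = 1) {P : EP W} :
    P ∈ E0 hM hN hNv ↔ N • P = 0 ∧ W.InZeroComponentAt A P := Iff.rfl

theorem gal_smul_zero (σ : GQ) : σ • (0 : EP W) = 0 :=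
  (DistribSMul.toAddMonoidHom (EP W) σ).map_zero

theorem smul_tors (σ : GQ) {P : EP W} (hP : N • P = 0) : N • (σ • P) = 0 := by
  have e : σ • (N • P) = N • (σ • P) := map_nsmul (DistribSMul.toAddMonoidHom (EP W) σ) N P
  rw [← e, hP, gal_smul_zero]

/-! ### (B3) inertia -/

/-- **(B3a)** inertia fixes the torsion points of the zero component. -/
theorem inertia_fix (hM : Mult W A) (hN : Odd N) (hNv : A.valuation (N : Qb) = 1) {σ : GQ}
    (hσ : σ ∈ A.inertiaSubgroupIn ℚ) {P : EP W} (hP : N • P = 0)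
    (h : W.InZeroComponentAt A P) : σ • P = P := by
  by_cases hP0 : P = 0
  · rw [hP0, gal_smul_zero]
  have hAlg := isAlgebraic_Qb inferInstance
  exact fix_unit (isWC_shift ((EQ W)⁄Qb) _ _) hM.isNodal (hM.isTors hN hNv)
    (isInert_of (EQ W) A hσ N) hP hP0 ((inZero_iff hM hN hNv hP0 hP).1 h)

/-- **(B3b)** `σ P - P` lies in the zero component for `σ` in the inertia group. -/
theorem inertia_sub (hM : Mult W A) (hN : Odd N) (hNv : A.valuation (N : Qb) = 1) {σ : GQ}
    (hσ : σ ∈ A.inertiaSubgroupIn ℚ) {P : EP W} (hP : N • P = 0) :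
    W.InZeroComponentAt A (σ • P - P) := by
  by_cases h : W.InZeroComponentAt A P
  · rw [inertia_fix hM hN hNv hσ hP h, sub_self]; exact inZero_zero
  have hP0 : P ≠ 0 := fun h0 => h (Or.inl h0)
  have hAlg := isAlgebraic_Qb inferInstance
  rcases sub_unit_of_node (isWC_shift ((EQ W)⁄Qb) _ _) hM.isNodal (hM.isTors hN hNv)
    (isInert_of (EQ W) A hσ N) hP hP0 ((not_inZero_iff hM hN hNv hP0 hP).1 h) with h1 | h1
  · have h1' : σ • P = P := h1
    rw [h1', sub_self]; exact inZero_zero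
  · by_cases h0 : σ • P - P = 0
    · exact Or.inl h0
    · exact (inZero_iff hM hN hNv h0 (by rw [nsmul_sub, smul_tors σ hP, hP, sub_zero])).2 h1

/-! ### (B4), (B5) the decomposition group -/

theorem val_X_smul {σ : GQ} (hσ : σ ∈ A.decompositionSubgroup ℚ) (P : EP W) :
    A.valuation (xc (σ • P) - cenR ((EQ W)⁄Qb)) = A.valuation (xc P - cenR ((EQ W)⁄Qb)) := by
  have hAlg := isAlgebraic_Qb inferInstance
  rw [xc_smul, ← cenR_fixed (EQ W) σ, ← map_sub, val_decomp_eq A hσ, cenR_fixed]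

/-- **(B4)** the decomposition group preserves the zero component. -/
theorem decomp_inZero_iff (hM : Mult W A) (hN : Odd N) (hNv : A.valuation (N : Qb) = 1) {σ : GQ}
    (hσ : σ ∈ A.decompositionSubgroup ℚ) {P : EP W} (hP : N • P = 0) :
    W.InZeroComponentAt A (σ • P) ↔ W.InZeroComponentAt A P := by
  by_cases hP0 : P = 0
  · rw [hP0, gal_smul_zero]
  rw [inZero_iff hM hN hNv ((smul_ne_zero_iff_ne σ).mpr hP0) (smul_tors σ hP),
    inZero_iff hM hN hNv hP0 hP, val_X_smul hσ]

/-- **(B5)** the decomposition group acts on `T[N] / E0` through `± 1`. -/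
theorem decomp_pm (hM : Mult W A) (hN : Odd N) (hNv : A.valuation (N : Qb) = 1) {σ : GQ}
    (hσ : σ ∈ A.decompositionSubgroup ℚ) {P : EP W} (hP : N • P = 0) :
    W.InZeroComponentAt A (σ • P - P) ∨ W.InZeroComponentAt A (σ • P + P) := by
  have hσP := smul_tors (N := N) σ hP
  by_cases h : W.InZeroComponentAt A P
  · left
    rw [sub_eq_add_neg]
    exact inZero_add hM hN hNv hσP (by rw [neg_nsmul, hP, _root_.neg_zero])
      ((decomp_inZero_iff hM hN hNv hσ hP).2 h) (inZero_neg hM hN hNv hP h)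
  have hP0 : P ≠ 0 := fun h0 => h (Or.inl h0)
  have hσP0 : σ • P ≠ 0 := (smul_ne_zero_iff_ne σ).mpr hP0
  rcases abs_pm_unit (isWC_shift ((EQ W)⁄Qb) _ _) hM.isNodal (hM.isTors hN hNv)
    (P := P) (Q := σ • P) hP hσP hP0 hσP0 ((not_inZero_iff hM hN hNv hP0 hP).1 h)
    (val_X_smul hσ P) with (h1 | h1) | h1 | h1
  · left; rw [h1, sub_self]; exact inZero_zero
  · right; rw [h1, neg_add_cancel]; exact inZero_zero
  · right
    rw [add_comm]
    by_cases h0 : P + σ • P = 0
    · exact Or.inl h0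
    · exact (inZero_iff hM hN hNv h0 (by rw [nsmul_add, hσP, hP, add_zero])).2 h1
  · left
    have e : σ • P - P = -(P - σ • P) := by abel
    have hT : N • (P - σ • P) = 0 := by rw [nsmul_sub, hσP, hP, sub_zero]
    rw [e]
    apply inZero_neg hM hN hNv hT
    by_cases h0 : P - σ • P = 0
    · exact Or.inl h0
    · exact (inZero_iff hM hN hNv h0 hT).2 h1

end main

end Fermat.Agent.S12.Loc
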