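import Fermat.Agent.S12.Contracts
import Fermat.Agent.S12.Loc.Bad
import Fermat.Agent.S58.LocG.Main
import Fermat.Agent.GAL.S31.RootsOfUnity
import Fermat.Agent.Lib.Frobenius

/-!
# S12 : the contracts `TwoThree` and `StarGood`
-/

set_option autoImplicit false
set_option linter.unusedSectionVars false
set_option linter.unusedVariables false

namespace Fermat.Agent.S12.Loc

open Fermat.Agent.S05 Fermat.Agent.S13 Fermat.Agent.S58 Fermat.Agent.S58.LocM
  Fermat.Agent.S15.M1.Loc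
open WeierstrassCurve WeierstrassCurve.Affine WeierstrassCurve.Affine.Point

variable {W : WeierstrassCurve ℤ} {A : ValuationSubring Qb} {N : ℕ}

/-- **(B6b)** an eigenvector of an element of the decomposition group with eigenvalue `≠ ± 1`
modulo every prime factor of `N` lies in the zero component. -/
theorem inZero_of_eigen (hM : Mult W A) (hN : Odd N) (hNv : A.valuation (N : Qb) = 1) {σ : GQ}
    (hσ : σ ∈ A.decompositionSubgroup ℚ) {Q : EP W} (hQ : N • Q = 0) {a : ℕ} (ha1 : 1 ≤ a)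
    (ha : σ • Q = a • Q) (h1 : Nat.Coprime (a - 1) N) (h2 : Nat.Coprime (a + 1) N) :
    W.InZeroComponentAt A Q := by
  have key : ∀ m : ℕ, Nat.Coprime m N → W.InZeroComponentAt A (m • Q) →
      W.InZeroComponentAt A Q := by
    intro m hm h
    have hN0 : 0 < N := hN.pos
    -- `b * m ≡ 1 mod N`
    obtain ⟨b, hb⟩ : ∃ b : ℕ, b * m ≡ 1 [MOD N] := by
      obtain ⟨b, -, hb⟩ := Nat.exists_mul_mod_eq_of_coprime 1 hm hN0.ne'
      exact ⟨b, by rw [mul_comm]; exact hb⟩
    have e : b • (m • Q) = Q := by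
      rw [← mul_nsmul']
      have h3 := (nsmul_eq_nsmul_iff_modEq (x := Q) (n := b * m) (m := 1)).2
        (hb.of_dvd (addOrderOf_dvd_of_nsmul_eq_zero hQ))
      rw [h3, one_nsmul]
    rw [← e]
    exact hM.inZero_nsmul hN hNv (by rw [← mul_nsmul', mul_comm, mul_nsmul', hQ, nsmul_zero]) h b
  rcases decomp_pm hM hN hNv hσ hQ with h | h
  · refine key (a - 1) h1 ?_
    have e : σ • Q - Q = (a - 1) • Q := by
      rw [ha]
      obtain ⟨c, rfl⟩ : ∃ c, a = c + 1 := ⟨a - 1, by omega⟩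
      rw [Nat.add_sub_cancel, succ_nsmul, add_sub_cancel_right]
    rwa [e] at h
  · refine key (a + 1) h2 ?_
    have e : σ • Q + Q = (a + 1) • Q := by rw [ha, succ_nsmul]
    rwa [e] at h

/-- **CONTRACT TWOTHREE.** -/
theorem twoThree : TwoThree := by
  intro W p ℓ hp hp5 hℓ23 hΔ hℓΔ hℓc Q hQ hcyc A hA
  have hℓ : ℓ.Prime := by
    rcases hℓ23 with rfl | rfl
    · exact Nat.prime_two
    · exact Nat.prime_three
  have hℓp : ¬ ℓ ∣ p := by
    intro h
    have := (Nat.prime_dvd_prime_iff_eq hℓ hp).1 h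
    rcases hℓ23 with rfl | rfl <;> omega
  have hM : Mult W A := mult_of hℓ hΔ hℓΔ hℓc hA
  have hNv := val_natCast_eq_one hℓ hA hℓp
  have hodd : Odd p := hp.odd_of_ne_two (by omega)
  have hGal := Lib.Frobenius.isGalois_algebraicClosure inferInstance
  obtain ⟨σ, hσ⟩ := Lib.Frobenius.exists_isFrobeniusAt A hℓ hA
  have : NeZero p := ⟨hp.ne_zero⟩
  have : NeZero (p : Qb) := ⟨Nat.cast_ne_zero.2 hp.ne_zero⟩
  obtain ⟨ζ, hζ⟩ := HasEnoughRootsOfUnity.exists_primitiveRoot Qb p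
  have hσζ : σ ζ = ζ ^ ℓ := GAL.S31.frobenius_apply_root A hℓ hA hσ hℓp hζ.pow_eq_one
  have ha := hcyc σ ζ ℓ hζ hσζ
  have hcop : ∀ m : ℕ, 0 < m → m < 5 → Nat.Coprime m p := by
    intro m hm0 hm5
    rw [Nat.coprime_comm, Nat.Prime.coprime_iff_not_dvd hp]
    intro h
    have := Nat.le_of_dvd hm0 h
    omega
  refine inZero_of_eigen hM hodd hNv hσ.mem_decompositionSubgroup
    (by rw [← hQ]; exact addOrderOf_nsmul_eq_zero Q) hℓ.one_le ha ?_ ?_
  · rcases hℓ23 with rfl | rfl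
    · exact hcop 1 (by omega) (by omega)
    · exact hcop 2 (by omega) (by omega)
  · rcases hℓ23 with rfl | rfl
    · exact hcop 3 (by omega) (by omega)
    · exact hcop 4 (by omega) (by omega)

/-- `ψ₂` of a torsion point at a prime of good reduction, for a curve which is only propositionally
equal to the generic fibre. -/
theorem psi_unit_aux {K : Type*} [Field K] [DecidableEq K] (𝒜 : ValuationSubring K)
    (W₀ : WeierstrassCurve ↥𝒜) (hΔ : IsLocalRing.residue ↥𝒜 W₀.Δ ≠ 0) (m : ℕ)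
    (hm : 𝒜.valuation (m : K) = 1) (WK : Affine K) (hWK : WK = W₀.map 𝒜.subtype) {x y : K}
    (h : WK.Nonsingular x y) (hP : m • Point.some x y h = 0)
    (hy : 2 * y + WK.a₁ * x + WK.a₃ ≠ 0) : 𝒜.valuation (2 * y + WK.a₁ * x + WK.a₃) = 1 := by
  subst hWK
  have e : y - (W₀.map 𝒜.subtype).toAffine.negY x y =
      2 * y + (W₀.map 𝒜.subtype).toAffine.a₁ * x + (W₀.map 𝒜.subtype).toAffine.a₃ := by
    rw [negY]; ring
  have := LocG.psi_of_torsion 𝒜 W₀ hΔ m hm h hP (by
    intro h0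
    apply hy
    rw [← e, sub_eq_zero]
    exact h0)
  rw [e] at this
  exact this

/-- **CONTRACT STAR-GOOD.** -/
theorem starGood : StarGood := by
  intro W p ℓ hp hp2 hℓ hℓp hΔ Q hQ A hA
  have hℓp' : ¬ ℓ ∣ p := fun h => hℓp ((Nat.prime_dvd_prime_iff_eq hℓ hp).1 h)
  have hNv := val_natCast_eq_one hℓ hA hℓp'
  have hodd : Odd p := hp.odd_of_ne_two hp2
  have hne := psiProd_ne_zero hodd hQ
  unfold psiProd at hne ⊢
  rw [Finset.prod_ne_zero_iff] at hne
  rw [map_prod]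
  refine Finset.prod_eq_one fun k hk => ?_
  have hk0 := nsmul_ne_zero_of_mem_Ico hQ hk
  have hT : p • (k • Q) = 0 := by
    rw [← mul_nsmul', mul_nsmul, ← hQ, addOrderOf_nsmul_eq_zero, nsmul_zero]
  have hψ := hne k hk
  generalize k • Q = T at hk0 hT hψ
  rcases T with _ | ⟨x, y, hxy⟩
  · exact absurd rfl hk0
  · exact psi_unit_aux A (W.map (Int.castRingHom ↥A)) (LocG.residue_Δ_ne_zero hℓ hA hΔ) p hNv
      ((W.map (Int.castRingHom ℚ))⁄Qb) (LocG.map_subtype_eq A W) hxy hT hψ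

end Fermat.Agent.S12.Loc
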