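import Fermat.Agent.S15.M1.Loc.Psi2

/-!
# S12 / LOC-BAD (B2) : at a multiplicative prime not all `n`-torsion points lie in the zero component

The Montgomery ladder (`S13/Ladder.lean`) started at the node of a nodal cubic is `(0,0,0,0)` from `n = 2` on.
So `ladZ W n`, whose roots are the `x`-coordinates of the `n`-torsion points and whose leading coefficient
`n²` is a unit, takes a non-unit value at the (approximate) node: some root is congruent to the node.
-/

set_option autoImplicit false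
set_option linter.unusedSectionVars false
set_option linter.unusedVariables false

namespace Fermat.Agent.S12.Loc

open Fermat.Agent.S05 Fermat.Agent.S13 Fermat.Agent.S13.Ladder Fermat.Agent.S58
  Fermat.Agent.S58.LocM Fermat.Agent.S15.M1.Loc
open WeierstrassCurve WeierstrassCurve.Affine WeierstrassCurve.Affine.Point Polynomial

section ladder

variable {R : Type*} [CommRing R]

lemma lad_one (c : Par R) :
    lad c 1 = ⟨Ladder.addX c 1 0 c.x 1, addZ 1 0 c.x 1, dblX c c.x 1, dblZ c c.x 1⟩ := by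
  have h : (1 : ℕ) = Nat.bit true 0 := rfl
  rw [h, lad_bit, lad_zero]
  rfl

lemma step_zero (c : Par R) (b : Bool) : step c b ⟨0, 0, 0, 0⟩ = ⟨0, 0, 0, 0⟩ := by
  cases b <;> simp [step, dblX, dblZ, Ladder.addX, addZ]

lemma dblX_map {S : Type*} [CommRing S] (f : R →+* S) (c : Par R) :
    dblX (c.map f) (c.map f).x 1 = f (dblX c c.x 1) := by
  simp only [dblX, Par.map, map_sub, map_mul, map_pow, map_ofNat, map_one]

lemma dblZ_map {S : Type*} [CommRing S] (f : R →+* S) (c : Par R) :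
    dblZ (c.map f) (c.map f).x 1 = f (dblZ c c.x 1) := by
  simp only [dblZ, Par.map, map_add, map_mul, map_pow, map_ofNat, map_one]

/-- the ladder started at a singular point. -/
theorem lad_node (c : Par R) (hA : dblX c c.x 1 = 0) (hB : dblZ c c.x 1 = 0) (n : ℕ)
    (hn : 2 ≤ n) : lad c n = ⟨0, 0, 0, 0⟩ := by
  induction n using Nat.binaryRec with
  | zero => omega
  | bit b m ih =>
    rw [lad_bit]
    have hm : 1 ≤ m := by
      rcases Nat.eq_zero_or_pos m with h0 | h0
      · subst h0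
        cases b <;> simp [Nat.bit] at hn
      · exact h0
    rcases Nat.eq_or_lt_of_le hm with h1 | h1
    · rw [← h1, lad_one, hA, hB]
      cases b
      · have e1 : Ladder.addX c 1 0 c.x 1 = c.x := by simp [Ladder.addX, addZ]; ring
        have e2 : addZ (1 : R) 0 c.x 1 = 1 := by simp [addZ]
        rw [e1, e2]
        simp only [step, hA, hB]
        simp [Ladder.addX, addZ]
      · have e1 : Ladder.addX c 1 0 c.x 1 = c.x := by simp [Ladder.addX, addZ]; ring
        have e2 : addZ (1 : R) 0 c.x 1 = 1 := by simp [addZ]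
        rw [e1, e2]
        simp [step, Ladder.addX, addZ, dblX, dblZ]
    · rw [ih h1, step_zero]

end ladder

section val

variable {A : ValuationSubring Qb}

/-- if the parameters are integral and the two duplication polynomials at `x` are in `𝔪_A`, the
ladder is in `𝔪_A` from `n = 2` on. -/
theorem val_lad_Z0_lt_one (c : Par Qb) (h2 : c.b2 ∈ A) (h4 : c.b4 ∈ A) (h6 : c.b6 ∈ A)
    (h8 : c.b8 ∈ A) (hx : c.x ∈ A) (hA : A.valuation (dblX c c.x 1) < 1)
    (hB : A.valuation (dblZ c c.x 1) < 1) (n : ℕ) (hn : 2 ≤ n) :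
    A.valuation (lad c n).Z0 < 1 := by
  let cA : Par A := ⟨⟨c.b2, h2⟩, ⟨c.b4, h4⟩, ⟨c.b6, h6⟩, ⟨c.b8, h8⟩, ⟨c.x, hx⟩⟩
  have e1 : cA.map A.subtype = c := rfl
  have e2 := lad_map A.subtype cA n
  have e3 := lad_map (IsLocalRing.residue A) cA n
  have hA' : dblX (cA.map (IsLocalRing.residue A)) (cA.map (IsLocalRing.residue A)).x 1 = 0 := by
    rw [dblX_map, residue_eq_zero_iff_val]
    have h' : ((dblX cA cA.x 1 : A) : Qb) = dblX c c.x 1 := (dblX_map A.subtype cA).symm
    rw [h']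
    exact hA
  have hB' : dblZ (cA.map (IsLocalRing.residue A)) (cA.map (IsLocalRing.residue A)).x 1 = 0 := by
    rw [dblZ_map, residue_eq_zero_iff_val]
    have h' : ((dblZ cA cA.x 1 : A) : Qb) = dblZ c c.x 1 := (dblZ_map A.subtype cA).symm
    rw [h']
    exact hB
  rw [lad_node _ hA' hB' n hn] at e3
  have h0 : IsLocalRing.residue A (lad cA n).Z0 = 0 := (congrArg St.Z0 e3).symm
  rw [residue_eq_zero_iff_val] at h0
  rw [← e1, e2]
  exact h0

variable {W : WeierstrassCurve ℤ}

/-- the value of `ladZ` at the approximate node is not a unit. -/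
theorem Mult_val_ladZ_lt_one (hM : Mult W A) (n : ℕ) (hn : 2 ≤ n) :
    A.valuation ((ladZ ((EQ W)⁄Qb) n).eval (cenR ((EQ W)⁄Qb))) < 1 := by
  have hW := isInt_of (K := Qb) A.valuation W
  have hN := hM.isNodal
  have hr := hM.val_cenR
  rw [ladZ_eval]
  set V := (EQ W)⁄Qb with hV
  set r := cenR V with hr'
  have hb6 : A.valuation (cen V).b₆ < 1 := hN.b₆.trans_lt hN.lt_one
  have hb8 : A.valuation (cen V).b₈ < 1 := hN.b₈.le.trans_lt hN.lt_one
  refine val_lad_Z0_lt_one (par V.toAffine r) ?_ ?_ ?_ ?_ ?_ ?_ ?_ n hn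
  · exact (A.valuation_le_one_iff _).mp (CentreVal_b₂ hW)
  · exact (A.valuation_le_one_iff _).mp (CentreVal_b₄ hW)
  · exact (A.valuation_le_one_iff _).mp (CentreVal_b₆ hW)
  · refine (A.valuation_le_one_iff _).mp ?_
    change A.valuation V.b₈ ≤ 1
    unfold WeierstrassCurve.b₈
    exact le1_sub _ (le1_add _ (le1_sub _ (le1_add _
      (le1_mul _ (le1_pow _ hW.a₁ 2) hW.a₆)
      (le1_mul _ (le1_mul _ (le1_ofNat _ 4) hW.a₂) hW.a₆))
      (le1_mul _ (le1_mul _ hW.a₁ hW.a₃) hW.a₄))
      (le1_mul _ hW.a₂ (le1_pow _ hW.a₃ 2))) (le1_pow _ hW.a₄ 2)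
  · exact (A.valuation_le_one_iff _).mp hr
  · have e : dblX (par V.toAffine r) (par V.toAffine r).x 1 = -(cen V).b₈ + r * (cen V).b₆ := by
      rw [cen, shift_b₈, shift_b₆]
      simp only [dblX, par]
      ring
    rw [e]
    exact lt1_add _ (by rw [Valuation.map_neg]; exact hb8) (lt1_mul_right _ hr hb6)
  · have e : dblZ (par V.toAffine r) (par V.toAffine r).x 1 = (cen V).b₆ := by
      rw [cen, shift_b₆]
      simp only [dblZ, par]
      ring
    rw [e]
    exact hb6

/-- **(B2)** some nonzero `n`-torsion point reduces to the node. -/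
theorem Mult_exists_node_tors (hM : Mult W A) {n : ℕ} (hn : 2 ≤ n)
    (hnv : A.valuation (n : Qb) = 1) :
    ∃ P : EP W, P ≠ 0 ∧ n • P = 0 ∧ A.valuation (xc P - cenR ((EQ W)⁄Qb)) < 1 := by
  have hΔ0 : ((EQ W)⁄Qb).Δ ≠ 0 := by
    rw [Δ_of]; exact_mod_cast hM.Δ_ne
  have hn0 : ((n : ℕ) : Qb) ^ 2 ≠ 0 := by
    have : (n : Qb) ≠ 0 := by
      intro h0
      rw [h0, _root_.map_zero] at hnv
      exact zero_ne_one hnv
    exact pow_ne_zero 2 this
  have hlt := Mult_val_ladZ_lt_one hM n hn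
  set f := ladZ ((EQ W)⁄Qb) n with hf
  set r := cenR ((EQ W)⁄Qb) with hr
  have hlc : f.leadingCoeff = (n : Qb) ^ 2 := leadingCoeff_ladZ _ hn0
  have hf0 : f ≠ 0 := by
    intro h0
    rw [h0, leadingCoeff_zero] at hlc
    exact hn0 hlc.symm
  rw [(IsAlgClosed.splits f).eval_eq_prod_roots, hlc, map_mul, map_pow, hnv, one_pow, one_mul,
    map_multiset_prod, Multiset.map_map] at hlt
  have hex : ∃ a ∈ f.roots, A.valuation (r - a) < 1 := by
    by_contra hc
    push Not at hc
    refine absurd (Multiset.one_le_prod_of_one_le ?_) (not_le.mpr hlt)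
    intro x hx
    obtain ⟨a, ha, rfl⟩ := Multiset.mem_map.mp hx
    exact hc a ha
  obtain ⟨a, ha, hva⟩ := hex
  obtain ⟨P, hP0, hPa⟩ := exists_point_of_x (W := ((EQ W)⁄Qb).toAffine) hΔ0 a
  refine ⟨P, hP0, ?_, ?_⟩
  · refine (ladZ_eval_eq_zero_iff hP0 n).1 ?_
    rw [hPa]
    exact (mem_roots hf0).1 ha
  · rw [hPa, ← Valuation.map_neg, neg_sub]
    exact hva

/-- **(B2)** not all `n`-torsion points lie in the zero component. -/
theorem Mult_exists_not_inZero (hM : Mult W A) {n : ℕ} (hn : 2 ≤ n)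
    (hnv : A.valuation (n : Qb) = 1) :
    ∃ P : EP W, n • P = 0 ∧ ¬ W.InZeroComponentAt A P := by
  obtain ⟨P, hP0, hnP, hlt⟩ := Mult_exists_node_tors hM hn hnv
  exact ⟨P, hnP, fun h => hlt.ne (hM.val_X_eq_one hP0 (val_xc_tors hnv hP0 hnP) h)⟩

end val

end Fermat.Agent.S12.Loc
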